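import Mathlib

/-!
# A3 / GR — arithmetic of a valuation ring of `ℚ̄` above `ℓ`  (helper675)

Pure algebra (Mathlib only).  `K` is a field all of whose elements are algebraic over `ℤ`
(e.g. `K = ℚ̄`), `A` a valuation subring of `K` with `(ℓ : K) ∈ A.nonunits`, `ℓ` prime.

* `valuation_intCast_eq_one`     : an integer prime to `ℓ` is a unit of `A`;
* `exists_pow_le_valuation`      : for `b ≠ 0` there is `m` with `v(ℓ)^m ≤ v(b)`;
* `exists_valuation_pow_le`      : for `a ∈ 𝔪` there is `n > 0` with `v(a)^n ≤ v(ℓ)`;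
* `harch`                        : **rank one**: `a ∈ 𝔪`, `b ≠ 0` ⟹ `∃ n, a^n / b ∈ A`
                                   (the hypothesis `harch` of `A3.H799.LocalStatement`);
* `exists_root_lift`             : (`K` algebraically closed) every root of the reduction of a
                                   monic `P ∈ A[X]` lifts to a root of `P` in `A`;
* `eq_of_pow_eq_one_of_sub_mem`  : reduction is injective on `m`-th roots of unity, `ℓ ∤ m`;
* `exists_pow_eq_one_residue`    : every nonzero residue class is a root of unity of order prime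
                                   to `ℓ`;
* `exists_fixed_lift`            : **Teichmüller lifts**: every `c` in the residue field has a lift
                                   `a ∈ A` fixed by every ring automorphism `σ` of `K` with
                                   `σ x - x ∈ 𝔪` for all `x ∈ A` (the field `I_lift_const` of
                                   `A3.H799.GoodRed`).
-/

set_option autoImplicit false
set_option linter.style.haveILetI false

open Polynomial

namespace Fermat.Agent.A3.H675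

variable {K : Type*} [Field K] (A : ValuationSubring K)

/-! ## Integers in `A` -/

theorem intCast_mem_vs (n : ℤ) : (n : K) ∈ A := intCast_mem A n

theorem valuation_intCast_le_one (n : ℤ) : A.valuation (n : K) ≤ 1 :=
  (A.valuation_le_one_iff _).mpr (intCast_mem_vs A n)

/-- An integer prime to `ℓ` is a unit of `A`. -/
theorem valuation_intCast_eq_one {ℓ : ℕ} (hℓ : ℓ.Prime) (hA : (ℓ : K) ∈ A.nonunits) {n : ℤ}
    (hn : ¬ (ℓ : ℤ) ∣ n) : A.valuation (n : K) = 1 := by
  rcases (valuation_intCast_le_one A n).lt_or_eq with h | h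
  · exfalso
    have hp : Prime (ℓ : ℤ) := Nat.prime_iff_prime_int.mp hℓ
    have hcop : IsCoprime (ℓ : ℤ) n := (hp.irreducible.coprime_iff_not_dvd).mpr hn
    obtain ⟨u, w, huw⟩ := hcop
    have h1 : ((u : K) * (ℓ : K)) + (w : K) * (n : K) = 1 := by
      have := congrArg (Int.cast : ℤ → K) huw
      push_cast at this
      exact this
    have hl : A.valuation (ℓ : K) < 1 := (A.mem_nonunits_iff).mp hA
    have h2 : A.valuation ((u : K) * (ℓ : K)) < 1 := by
      rw [map_mul]
      calc A.valuation (u : K) * A.valuation (ℓ : K) ≤ 1 * A.valuation (ℓ : K) :=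
            mul_le_mul_left (valuation_intCast_le_one A u) _
        _ = A.valuation (ℓ : K) := one_mul _
        _ < 1 := hl
    have h3 : A.valuation ((w : K) * (n : K)) < 1 := by
      rw [map_mul]
      calc A.valuation (w : K) * A.valuation (n : K) ≤ 1 * A.valuation (n : K) :=
            mul_le_mul_left (valuation_intCast_le_one A w) _
        _ = A.valuation (n : K) := one_mul _
        _ < 1 := h
    have h4 : A.valuation (((u : K) * (ℓ : K)) + (w : K) * (n : K)) < 1 :=
      A.valuation.map_add_lt h2 h3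
    rw [h1, map_one] at h4
    exact lt_irrefl _ h4
  · exact h


/-- The valuation of a nonzero integer is a power of the valuation of `ℓ`. -/
theorem exists_valuation_intCast_eq {ℓ : ℕ} (hℓ : ℓ.Prime) (hA : (ℓ : K) ∈ A.nonunits) {y : ℤ}
    (hy : y ≠ 0) : ∃ e : ℕ, A.valuation (y : K) = A.valuation (ℓ : K) ^ e := by
  obtain ⟨e, n', hn', hyn⟩ :=
    Nat.exists_eq_pow_mul_and_not_dvd (Int.natAbs_ne_zero.mpr hy) ℓ hℓ.ne_one
  refine ⟨e, ?_⟩
  have h1 : A.valuation ((y.natAbs : ℤ) : K) = A.valuation (y : K) := by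
    rcases Int.natAbs_eq y with h | h
    · rw [← h]
    · conv_rhs => rw [h]
      rw [Int.cast_neg, Valuation.map_neg]
  rw [← h1, hyn]
  push_cast
  rw [map_mul, map_pow]
  have h2 : A.valuation (((n' : ℤ) : K)) = 1 :=
    valuation_intCast_eq_one A hℓ hA (by exact_mod_cast hn')
  have h3 : ((n' : ℤ) : K) = (n' : K) := by push_cast; rfl
  rw [← h3, h2, mul_one]

/-- An element integral over `ℤ` lies in `A`. -/
theorem mem_of_isIntegral_int {x : K} (hx : IsIntegral ℤ x) : x ∈ A := by
  have h : IsIntegral A x := hx.tower_top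
  obtain ⟨y, hy⟩ := (IsIntegrallyClosed.isIntegral_iff (R := A) (K := K)).mp h
  rw [← hy]
  exact y.2

/-- For `b ≠ 0` algebraic over `ℤ` there is `m` with `v(ℓ)^m ≤ v(b)`. -/
theorem exists_pow_le_valuation {ℓ : ℕ} (hℓ : ℓ.Prime) (hA : (ℓ : K) ∈ A.nonunits) {b : K}
    (hb : b ≠ 0) (halg : IsAlgebraic ℤ b) :
    ∃ m : ℕ, A.valuation (ℓ : K) ^ m ≤ A.valuation b := by
  obtain ⟨y, hy0, hyint⟩ := (halg.inv).exists_integral_multiple
  have hmem : y • b⁻¹ ∈ A := mem_of_isIntegral_int A hyint
  obtain ⟨e, he⟩ := exists_valuation_intCast_eq A hℓ hA hy0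
  refine ⟨e, ?_⟩
  rw [← he]
  have h1 : A.valuation (y • b⁻¹) ≤ 1 := (A.valuation_le_one_iff _).mpr hmem
  rw [zsmul_eq_mul, map_mul, map_inv₀] at h1
  have hvb : A.valuation b ≠ 0 := (Valuation.ne_zero_iff _).mpr hb
  have h2 := (mul_inv_le_iff₀ (zero_lt_iff.mpr hvb)).mp h1
  simpa using h2


/-- A polynomial over `ℤ` vanishing at `a`, with a coefficient prime to `ℓ`. -/
theorem exists_int_poly_not_dvd [CharZero K] {ℓ : ℕ} (hℓ : ℓ.Prime) {a : K}
    (halg : IsAlgebraic ℤ a) :
    ∃ q : ℤ[X], eval₂ (Int.castRingHom K) a q = 0 ∧ ∃ i, ¬ (ℓ : ℤ) ∣ q.coeff i := by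
  obtain ⟨p, hp0, hpa⟩ := halg
  have hinj : Function.Injective (Int.castRingHom K) := Int.cast_injective
  have hpa' : eval₂ (Int.castRingHom K) a p = 0 := by
    rw [← hpa, aeval_def]
    rfl
  refine ⟨p.primPart, eval₂_primPart_eq_zero hinj hp0 hpa', ?_⟩
  by_contra hcon
  simp only [not_exists, not_not] at hcon
  have hdvd : C (ℓ : ℤ) ∣ p.primPart := (C_dvd_iff_dvd_coeff _ _).mpr hcon
  have hu : IsUnit (ℓ : ℤ) := (isPrimitive_primPart p) _ hdvd
  have hp : Prime (ℓ : ℤ) := Nat.prime_iff_prime_int.mp hℓ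
  exact hp.not_isUnit hu

/-- For `a ∈ 𝔪` algebraic over `ℤ` there is `n > 0` with `v(a)^n ≤ v(ℓ)`. -/
theorem exists_valuation_pow_le [CharZero K] {ℓ : ℕ} (hℓ : ℓ.Prime) (hA : (ℓ : K) ∈ A.nonunits)
    {a : K} (ha : a ∈ A.nonunits) (halg : IsAlgebraic ℤ a) :
    ∃ n : ℕ, 0 < n ∧ A.valuation a ^ n ≤ A.valuation (ℓ : K) := by
  classical
  have hl : A.valuation (ℓ : K) < 1 := (A.mem_nonunits_iff).mp hA
  have hva : A.valuation a < 1 := (A.mem_nonunits_iff).mp ha
  rcases eq_or_ne a 0 with rfl | ha0
  · exact ⟨1, one_pos, by simp⟩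
  have hva0 : A.valuation a ≠ 0 := (Valuation.ne_zero_iff _).mpr ha0
  obtain ⟨q, hq, hex⟩ := exists_int_poly_not_dvd hℓ halg
  set i0 := Nat.find hex with hi0
  have hi0spec : ¬ (ℓ : ℤ) ∣ q.coeff i0 := Nat.find_spec hex
  have hmin : ∀ i, i < i0 → (ℓ : ℤ) ∣ q.coeff i := fun i hi => by
    by_contra h
    exact Nat.find_min hex hi h
  have hkey : A.valuation a ^ i0 ≤ A.valuation (ℓ : K) := by
    by_contra hcon
    rw [not_le] at hcon
    -- the term `i0` strictly dominates
    have hc0 : q.coeff i0 ≠ 0 := fun h => hi0spec (by rw [h]; exact dvd_zero _)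
    have hle : i0 ≤ q.natDegree := le_natDegree_of_ne_zero hc0
    have hmem : i0 ∈ Finset.range (q.natDegree + 1) := Finset.mem_range.mpr (by omega)
    rw [eval₂_eq_sum_range, ← Finset.add_sum_erase _ _ hmem] at hq
    have hv0 : A.valuation ((Int.castRingHom K) (q.coeff i0) * a ^ i0) = A.valuation a ^ i0 := by
      rw [map_mul, map_pow]
      have : A.valuation ((Int.castRingHom K) (q.coeff i0)) = 1 :=
        valuation_intCast_eq_one A hℓ hA hi0spec
      rw [this, one_mul]
    have hg0 : A.valuation a ^ i0 ≠ 0 := pow_ne_zero _ hva0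
    have hrest : A.valuation (∑ x ∈ (Finset.range (q.natDegree + 1)).erase i0,
        (Int.castRingHom K) (q.coeff x) * a ^ x) < A.valuation a ^ i0 := by
      refine A.valuation.map_sum_lt hg0 ?_
      intro i hi
      have hne : i ≠ i0 := (Finset.mem_erase.mp hi).1
      rw [map_mul, map_pow]
      rcases lt_or_gt_of_ne hne with hlt | hgt
      · obtain ⟨c, hc⟩ := hmin i hlt
        have h1 : A.valuation ((Int.castRingHom K) (q.coeff i)) ≤ A.valuation (ℓ : K) := by
          rw [hc]
          have : (Int.castRingHom K) ((ℓ : ℤ) * c) = (ℓ : K) * (c : K) := by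
            simp
          rw [this, map_mul]
          exact mul_le_of_le_one_right' (valuation_intCast_le_one A c)
        calc A.valuation ((Int.castRingHom K) (q.coeff i)) * A.valuation a ^ i
            ≤ A.valuation ((Int.castRingHom K) (q.coeff i)) :=
              mul_le_of_le_one_right' (Right.pow_le_one_of_le hva.le)
          _ ≤ A.valuation (ℓ : K) := h1
          _ < A.valuation a ^ i0 := hcon
      · calc A.valuation ((Int.castRingHom K) (q.coeff i)) * A.valuation a ^ i
            ≤ A.valuation a ^ i := mul_le_of_le_one_left' (valuation_intCast_le_one A _)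
          _ < A.valuation a ^ i0 :=
              pow_lt_pow_right_of_lt_one₀ (zero_lt_iff.mpr hva0) hva hgt
    have hneg : (Int.castRingHom K) (q.coeff i0) * a ^ i0 =
        - ∑ x ∈ (Finset.range (q.natDegree + 1)).erase i0,
          (Int.castRingHom K) (q.coeff x) * a ^ x := eq_neg_of_add_eq_zero_left hq
    rw [← hv0, hneg, Valuation.map_neg] at hrest
    exact lt_irrefl _ hrest
  refine ⟨i0, ?_, hkey⟩
  rcases Nat.eq_zero_or_pos i0 with h0 | h0
  · exfalso
    rw [h0, pow_zero] at hkey
    exact not_lt.mpr hkey hl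
  · exact h0

/-- **Rank one.**  If every element of `K` is algebraic over `ℤ` and `A` lies over `ℓ`, then for
`a ∈ 𝔪` and `b ≠ 0` some power of `a` is divisible by `b` in `A`. -/
theorem harch [CharZero K] (halg : ∀ x : K, IsAlgebraic ℤ x) {ℓ : ℕ} (hℓ : ℓ.Prime)
    (hA : (ℓ : K) ∈ A.nonunits) :
    ∀ a b : K, a ∈ A.nonunits → b ≠ 0 → ∃ n : ℕ, a ^ n / b ∈ A := by
  intro a b ha hb
  obtain ⟨n, -, hn⟩ := exists_valuation_pow_le A hℓ hA ha (halg a)
  obtain ⟨m, hm⟩ := exists_pow_le_valuation A hℓ hA hb (halg b)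
  refine ⟨n * m, ?_⟩
  rw [← A.valuation_le_one_iff, map_div₀, map_pow, pow_mul]
  have hvb : A.valuation b ≠ 0 := (Valuation.ne_zero_iff _).mpr hb
  have h1 : (A.valuation a ^ n) ^ m ≤ A.valuation b :=
    (pow_le_pow_left' hn m).trans hm
  rw [div_eq_mul_inv]
  refine (mul_inv_le_iff₀ (zero_lt_iff.mpr hvb)).mpr ?_
  rw [one_mul]
  exact h1


/-! ## Lifting roots -/

/-- In a valuation subring of an algebraically closed field every root of the reduction of a
monic polynomial lifts to a root of the polynomial. -/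
theorem exists_root_lift [IsAlgClosed K] (P : A[X]) (hP : P.Monic)
    (c : IsLocalRing.ResidueField A) (hc : (P.map (IsLocalRing.residue A)).eval c = 0) :
    ∃ a : A, P.eval a = 0 ∧ IsLocalRing.residue A a = c := by
  classical
  set Q := P.map (algebraMap A K) with hQ
  have hQm : Q.Monic := hP.map _
  have hsplit : Q.Splits := IsAlgClosed.splits Q
  have hprod := hsplit.eq_prod_roots_of_monic hQm
  have hinj : Function.Injective (algebraMap A K) := Subtype.val_injective
  have hroot : ∀ x ∈ Q.roots, x ∈ A := by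
    intro x hx
    have hx0 : Q.IsRoot x := (mem_roots hQm.ne_zero).mp hx
    have hx1 : eval₂ (algebraMap A K) x P = 0 := by
      rw [← eval_map]; exact hx0
    have hint : IsIntegral A x := ⟨P, hP, hx1⟩
    obtain ⟨y, hy⟩ := (IsIntegrallyClosed.isIntegral_iff (R := A) (K := K)).mp hint
    rw [← hy]
    exact y.2
  set s : Multiset A := Q.roots.pmap (fun x hx => (⟨x, hx⟩ : A)) hroot with hs
  have hPeq : P = (s.map (fun a => X - C a)).prod := by
    apply Polynomial.map_injective (algebraMap A K) hinj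
    rw [Polynomial.map_multiset_prod, Multiset.map_map]
    have h1 : (Multiset.map (Polynomial.map (algebraMap A K) ∘ fun a => X - C a) s)
        = Multiset.map (fun x => X - C x) Q.roots := by
      rw [hs, Multiset.map_pmap]
      have h2 : (fun (a : K) (h : a ∈ A) =>
          (Polynomial.map (algebraMap A K) ∘ fun a => X - C a) (⟨a, h⟩ : A))
          = fun (a : K) (_ : a ∈ A) => (X - C a : K[X]) := by
        funext a h
        simp
      rw [h2]
      exact Multiset.pmap_eq_map _ _ _ _
    rw [h1]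
    exact hprod
  have hred : P.map (IsLocalRing.residue A)
      = (s.map (fun a => X - C (IsLocalRing.residue A a))).prod := by
    conv_lhs => rw [hPeq]
    rw [Polynomial.map_multiset_prod, Multiset.map_map]
    congr 1
    refine Multiset.map_congr rfl ?_
    intro a _
    simp
  rw [hred, eval_multiset_prod, Multiset.map_map, Multiset.prod_eq_zero_iff] at hc
  obtain ⟨a, has, ha⟩ := Multiset.mem_map.mp hc
  refine ⟨a, ?_, ?_⟩
  · rw [hPeq, eval_multiset_prod, Multiset.map_map, Multiset.prod_eq_zero_iff]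
    exact Multiset.mem_map.mpr ⟨a, has, by simp⟩
  · simp only [Function.comp_apply, eval_sub, eval_X, eval_C] at ha
    exact (sub_eq_zero.mp ha).symm


/-! ## Roots of unity of order prime to `ℓ` -/

theorem valuation_eq_one_of_pow_eq_one {x : K} {m : ℕ} (hm : m ≠ 0) (hx : x ^ m = 1) :
    A.valuation x = 1 := by
  have h : A.valuation x ^ m = 1 := by rw [← map_pow, hx, map_one]
  exact (pow_eq_one_iff_left hm).mp h

theorem valuation_geom_sum₂_le_one {x y : K} (hx : A.valuation x ≤ 1) (hy : A.valuation y ≤ 1)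
    (n : ℕ) : A.valuation (∑ i ∈ Finset.range n, x ^ i * y ^ (n - 1 - i)) ≤ 1 := by
  refine A.valuation.map_sum_le ?_
  intro i _
  rw [map_mul, map_pow, map_pow]
  exact mul_le_one' (Right.pow_le_one_of_le hx) (Right.pow_le_one_of_le hy)

/-- Reduction is injective on the `m`-th roots of unity, `ℓ ∤ m`. -/
theorem eq_of_pow_eq_one_of_sub_mem {ℓ : ℕ} (hℓ : ℓ.Prime) (hA : (ℓ : K) ∈ A.nonunits) {m : ℕ}
    (hm : ¬ ℓ ∣ m) {x y : K} (hx : x ^ m = 1) (hy : y ^ m = 1) (hxy : x - y ∈ A.nonunits) :
    x = y := by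
  by_contra hne
  have hm0 : m ≠ 0 := fun h => hm (by rw [h]; exact dvd_zero _)
  have hvx : A.valuation x = 1 := valuation_eq_one_of_pow_eq_one A hm0 hx
  have hvy : A.valuation y = 1 := valuation_eq_one_of_pow_eq_one A hm0 hy
  have hvxy : A.valuation (x - y) < 1 := (A.mem_nonunits_iff).mp hxy
  have hS : (∑ i ∈ Finset.range m, x ^ i * y ^ (m - 1 - i)) = 0 := by
    have h := geom_sum₂_mul x y m
    rw [hx, hy, sub_self] at h
    rcases mul_eq_zero.mp h with h | h
    · exact h
    · exact absurd (sub_eq_zero.mp h) hne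
  -- `S - m y^(m-1) = ∑ (x^i - y^i) y^(m-1-i)` has valuation `< 1`
  have hdiff : A.valuation ((∑ i ∈ Finset.range m, x ^ i * y ^ (m - 1 - i))
      - ∑ i ∈ Finset.range m, y ^ i * y ^ (m - 1 - i)) < 1 := by
    rw [← Finset.sum_sub_distrib]
    refine A.valuation.map_sum_lt one_ne_zero ?_
    intro i _
    rw [← sub_mul, map_mul, map_pow]
    have h1 : A.valuation (x ^ i - y ^ i) < 1 := by
      rw [← geom_sum₂_mul x y i, map_mul]
      calc A.valuation (∑ j ∈ Finset.range i, x ^ j * y ^ (i - 1 - j)) * A.valuation (x - y)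
          ≤ A.valuation (x - y) :=
            mul_le_of_le_one_left' (valuation_geom_sum₂_le_one A hvx.le hvy.le i)
        _ < 1 := hvxy
    rw [hvy, one_pow, mul_one]
    exact h1
  rw [hS, zero_sub, Valuation.map_neg] at hdiff
  have hsum : (∑ i ∈ Finset.range m, y ^ i * y ^ (m - 1 - i)) = (m : K) * y ^ (m - 1) := by
    rw [Finset.sum_congr rfl (fun i hi => ?_), Finset.sum_const, Finset.card_range,
      nsmul_eq_mul]
    rw [← pow_add]
    congr 1
    have := Finset.mem_range.mp hi
    omega
  rw [hsum, map_mul, map_pow, hvy, one_pow, mul_one] at hdiff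
  have hvm : A.valuation (((m : ℤ) : K)) = 1 :=
    valuation_intCast_eq_one A hℓ hA (by exact_mod_cast hm)
  have h3 : (((m : ℤ) : K)) = (m : K) := by push_cast; rfl
  rw [h3] at hvm
  rw [hvm] at hdiff
  exact lt_irrefl _ hdiff


/-! ## The residue field -/

theorem natCast_residue_eq_zero_of_mem {ℓ : ℕ} (hA : (ℓ : K) ∈ A.nonunits) :
    ((ℓ : ℕ) : IsLocalRing.ResidueField A) = 0 := by
  have h : ((ℓ : A) : K) ∈ A.nonunits := by simpa using hA
  have h' : (ℓ : A) ∈ IsLocalRing.maximalIdeal A := (A.coe_mem_nonunits_iff).mp h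
  have := (IsLocalRing.residue_eq_zero_iff (ℓ : A)).mpr h'
  simpa using this

theorem charP_residueField {ℓ : ℕ} (hℓ : ℓ.Prime) (hA : (ℓ : K) ∈ A.nonunits) :
    CharP (IsLocalRing.ResidueField A) ℓ :=
  (CharP.charP_iff_prime_eq_zero hℓ).mpr (natCast_residue_eq_zero_of_mem A hA)

/-- Every nonzero element of the residue field is a root of unity of order prime to `ℓ`. -/
theorem exists_pow_eq_one_residue [CharZero K] (halg : ∀ x : K, IsAlgebraic ℤ x) {ℓ : ℕ}
    (hℓ : ℓ.Prime) (hA : (ℓ : K) ∈ A.nonunits) {c : IsLocalRing.ResidueField A} (hc : c ≠ 0) :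
    ∃ m : ℕ, ¬ ℓ ∣ m ∧ c ^ m = 1 := by
  classical
  haveI : Fact ℓ.Prime := ⟨hℓ⟩
  haveI : CharP (IsLocalRing.ResidueField A) ℓ := charP_residueField A hℓ hA
  letI : Algebra (ZMod ℓ) (IsLocalRing.ResidueField A) := ZMod.algebra _ ℓ
  obtain ⟨a₀, rfl⟩ := IsLocalRing.residue_surjective c
  obtain ⟨q, hq, i, hi⟩ := exists_int_poly_not_dvd hℓ (halg (a₀ : K))
  -- the relation holds in `A`
  have hqA : eval₂ (Int.castRingHom A) a₀ q = 0 := by
    apply Subtype.val_injective
    have := hom_eval₂ q (Int.castRingHom A) A.subtype a₀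
    rw [show (A.subtype.comp (Int.castRingHom A)) = Int.castRingHom K from RingHom.ext_int _ _]
      at this
    rw [ValuationSubring.coe_subtype] at this
    rw [this]
    exact hq
  -- and in the residue field
  have hqk : eval₂ (Int.castRingHom (IsLocalRing.ResidueField A)) (IsLocalRing.residue A a₀) q
      = 0 := by
    have := hom_eval₂ q (Int.castRingHom A) (IsLocalRing.residue A) a₀
    rw [show ((IsLocalRing.residue A).comp (Int.castRingHom A))
      = Int.castRingHom (IsLocalRing.ResidueField A) from RingHom.ext_int _ _] at this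
    rw [← this, hqA, map_zero]
  have halgc : IsAlgebraic (ZMod ℓ) (IsLocalRing.residue A a₀) := by
    refine ⟨q.map (Int.castRingHom (ZMod ℓ)), ?_, ?_⟩
    · intro h0
      have := congrArg (fun p => p.coeff i) h0
      simp only [coeff_map, coeff_zero] at this
      have h1 : ((q.coeff i : ℤ) : ZMod ℓ) = 0 := this
      exact hi ((ZMod.intCast_zmod_eq_zero_iff_dvd _ _).mp h1)
    · rw [aeval_def, eval₂_map]
      rw [show ((algebraMap (ZMod ℓ) (IsLocalRing.ResidueField A)).comp
        (Int.castRingHom (ZMod ℓ))) = Int.castRingHom (IsLocalRing.ResidueField A)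
        from RingHom.ext_int _ _]
      exact hqk
  have hint : IsIntegral (ZMod ℓ) (IsLocalRing.residue A a₀) :=
    isAlgebraic_iff_isIntegral.mp halgc
  haveI : FiniteDimensional (ZMod ℓ)
      (IntermediateField.adjoin (ZMod ℓ) {IsLocalRing.residue A a₀}) :=
    IntermediateField.adjoin.finiteDimensional hint
  haveI : Finite (IntermediateField.adjoin (ZMod ℓ) {IsLocalRing.residue A a₀}) :=
    Module.finite_of_finite (ZMod ℓ)
  letI : Fintype (IntermediateField.adjoin (ZMod ℓ) {IsLocalRing.residue A a₀}) :=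
    Fintype.ofFinite _
  set F := IntermediateField.adjoin (ZMod ℓ) {IsLocalRing.residue A a₀} with hF
  let c' : F := ⟨IsLocalRing.residue A a₀, IntermediateField.mem_adjoin_simple_self _ _⟩
  have hc' : c' ≠ 0 := fun h => hc (congrArg Subtype.val h)
  have hpow := FiniteField.pow_card_sub_one_eq_one c' hc'
  obtain ⟨n, -, hcard⟩ := FiniteField.card F ℓ
  refine ⟨Fintype.card F - 1, ?_, ?_⟩
  · intro hdvd
    have h1 : ℓ ∣ Fintype.card F := by
      rw [hcard]
      exact dvd_pow_self ℓ n.ne_zero
    have hpos : 0 < Fintype.card F := Fintype.card_pos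
    have h2 : ℓ ∣ 1 := by
      have : Fintype.card F = (Fintype.card F - 1) + 1 := by omega
      rw [this] at h1
      exact (Nat.dvd_add_right hdvd).mp h1
    exact hℓ.one_lt.ne' (Nat.dvd_one.mp h2)
  · have := congrArg Subtype.val hpow
    simpa [c'] using this


/-! ## Teichmüller lifts -/

/-- **Teichmüller lifts.**  Every element of the residue field has a lift to `A` which is fixed
by every ring automorphism of `K` acting trivially on the residue field. -/
theorem exists_fixed_lift [IsAlgClosed K] [CharZero K] (halg : ∀ x : K, IsAlgebraic ℤ x) {ℓ : ℕ}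
    (hℓ : ℓ.Prime) (hA : (ℓ : K) ∈ A.nonunits) (c : IsLocalRing.ResidueField A) :
    ∃ a : A, IsLocalRing.residue A a = c ∧
      ∀ σ : K ≃+* K, (∀ x : K, x ∈ A → σ x - x ∈ A.nonunits) → σ (a : K) = (a : K) := by
  rcases eq_or_ne c 0 with rfl | hc
  · exact ⟨0, map_zero _, fun σ _ => by simp⟩
  obtain ⟨m, hm, hcm⟩ := exists_pow_eq_one_residue A halg hℓ hA hc
  have hm0 : m ≠ 0 := fun h => hm (by rw [h]; exact dvd_zero _)
  have hmon : (X ^ m - 1 : A[X]).Monic := monic_X_pow_sub_C (1 : A) hm0
  have hroot : ((X ^ m - 1 : A[X]).map (IsLocalRing.residue A)).eval c = 0 := by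
    simp [hcm]
  obtain ⟨a, ha, hac⟩ := exists_root_lift A (X ^ m - 1) hmon c hroot
  have ha1 : (a : K) ^ m = 1 := by
    have h1 : a ^ m = 1 := by
      have := ha
      simp only [eval_sub, eval_pow, eval_X, eval_one] at this
      exact sub_eq_zero.mp this
    have := congrArg (Subtype.val : A → K) h1
    simpa using this
  refine ⟨a, hac, ?_⟩
  intro σ hσ
  have h2 : (σ (a : K)) ^ m = 1 := by rw [← map_pow, ha1, map_one]
  exact eq_of_pow_eq_one_of_sub_mem A hℓ hA hm h2 ha1 (hσ (a : K) a.2)

end Fermat.Agent.A3.H675
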