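import Fermat.Agent.A3.H799.GoodRed
import Fermat.Agent.S19.Spec
import Fermat.Agent.S18.H905.Residue
import Fermat.Agent.A3.H675.Ant
import Fermat.Prelude.Def_ModularCurve_ReductionModL

/-!
# A3 / GR — the exact target of block GR and its glue to the node `LOCAL`  (helper675)

Board: `origin/helper15:coord/A3.md` (LOCAL = DISC + GR).

* `inertiaGrp A`     : the inertia group `{σ | ∀ a ∈ A, σ a - a ∈ 𝔪_A}` of a valuation subring `A`
                       of `ℚ̄`, as a `Subgroup` (`S19.IsInertiaAt` is its membership predicate);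
* `inertiaSemi N A`  : its image in `SemilinearAut ℚ̄ (ℚ̄(X₀(N)))` under `arithmeticGalois`;
* `GrAt N A`         : **the GR target at `(N, A)`** — a `A3.H799.GoodRed` for
                       `ℚ̄(X₀(N)) / ℚ̄` and `k(X₀(N)) / k`, `k = A/𝔪`, with `V = A` and
                       `I ⊇ inertiaSemi N A`;
* `GrStatement`      : `GrAt N A` for all good levels `N` and all `A` over `ℓ ∤ N`;
* `harch_Qb`         : valuation subrings of `ℚ̄` over a prime have rank one (the hypothesis
                       `harch` of `A3.H799.LocalStatement`) — PROVED;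
* `localStatement_of_disc_gr` : **glue, PROVED**:
      abstract `A3.H799.LocalStatement` (block DISC)  +  `GrStatement` (block GR)
      +  one valuation subring over each prime   ⟹   `S19.LocalStatement` (node LOCAL).
-/

set_option autoImplicit false
set_option linter.style.haveILetI false
set_option synthInstance.maxHeartbeats 400000

noncomputable section

namespace Fermat.Agent.A3.H675

open AlgebraicCurve ModularCurve Fermat.Agent.S19

/-- the residue field of `A` -/
abbrev kRes (A : ValuationSubring Qb) : Type := IsLocalRing.ResidueField A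

/-- `ℚ̄(X₀(N))` -/
abbrev FBar (N : ℕ) : IntermediateField Qb (LaurentSeries Qb) := modularFunctionFieldBar N

/-- `k(X₀(N))`, `k = A/𝔪` -/
abbrev FRes (A : ValuationSubring Qb) (N : ℕ) :
    IntermediateField (kRes A) (LaurentSeries (kRes A)) :=
  modularFunctionFieldFullC (kRes A) N

/-! ## The inertia group -/

theorem isInertiaAt_apply_mem {A : ValuationSubring Qb} {σ : GalQ} (hσ : IsInertiaAt A σ)
    {a : Qb} (ha : a ∈ A) : σ a ∈ A := by
  have h := A.nonunits_subset (hσ a ha)
  have h2 : σ a = (σ a - a) + a := by ring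
  rw [h2]
  exact A.add_mem _ _ h ha

theorem isInertiaAt_symm_apply_mem {A : ValuationSubring Qb} {σ : GalQ} (hσ : IsInertiaAt A σ)
    {a : Qb} (ha : a ∈ A) : σ.symm a ∈ A := by
  by_contra hb
  -- `b = σ⁻¹ a ∉ A`, so `b⁻¹ ∈ 𝔪`, so `σ b⁻¹ = a⁻¹ ∈ 𝔪`
  have hb0 : σ.symm a ≠ 0 := fun h => hb (by rw [h]; exact A.zero_mem)
  have hbinv : (σ.symm a)⁻¹ ∈ A.nonunits := by
    rw [ValuationSubring.mem_nonunits_iff_or]
    right
    rwa [inv_inv]
  have h1 : σ ((σ.symm a)⁻¹) - (σ.symm a)⁻¹ ∈ A.nonunits := hσ _ (A.nonunits_subset hbinv)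
  have h2 : σ ((σ.symm a)⁻¹) ∈ A.nonunits := by
    have : σ ((σ.symm a)⁻¹) = (σ ((σ.symm a)⁻¹) - (σ.symm a)⁻¹) + (σ.symm a)⁻¹ := by ring
    rw [this]
    exact A.nonunits.add_mem h1 hbinv
  rw [map_inv₀, AlgEquiv.apply_symm_apply] at h2
  rw [ValuationSubring.mem_nonunits_iff_or] at h2
  rcases h2 with h2 | h2
  · rw [inv_eq_zero] at h2
    rw [h2, map_zero] at hb0
    exact hb0 rfl
  · rw [inv_inv] at h2
    exact h2 ha

/-- The inertia group of a valuation subring of `ℚ̄`. -/
def inertiaGrp (A : ValuationSubring Qb) : Subgroup GalQ where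
  carrier := {σ | IsInertiaAt A σ}
  one_mem' := fun a _ => by
    show (1 : GalQ) a - a ∈ A.nonunits
    rw [AlgEquiv.one_apply, sub_self]
    exact A.nonunits.zero_mem
  mul_mem' := by
    intro σ τ hσ hτ a ha
    show (σ * τ) a - a ∈ A.nonunits
    have h1 : (σ * τ) a - a = (σ (τ a) - τ a) + (τ a - a) := by
      rw [AlgEquiv.mul_apply]; ring
    rw [h1]
    exact A.nonunits.add_mem (hσ _ (isInertiaAt_apply_mem hτ ha)) (hτ a ha)
  inv_mem' := by
    intro σ hσ a ha
    show σ⁻¹ a - a ∈ A.nonunits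
    have hb : σ.symm a ∈ A := isInertiaAt_symm_apply_mem hσ ha
    have h1 := hσ _ hb
    rw [AlgEquiv.apply_symm_apply] at h1
    have h2 : σ⁻¹ a - a = -(a - σ.symm a) := by
      show σ.symm a - a = _
      ring
    rw [h2]
    exact A.nonunits.neg_mem h1

@[simp] theorem mem_inertiaGrp {A : ValuationSubring Qb} {σ : GalQ} :
    σ ∈ inertiaGrp A ↔ IsInertiaAt A σ := Iff.rfl

/-- The image of the inertia group in the semilinear automorphisms of `ℚ̄(X₀(N))`. -/
def inertiaSemi (N : ℕ) (A : ValuationSubring Qb) : Subgroup (SemilinearAut Qb (FBar N)) :=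
  (inertiaGrp A).map (arithmeticGalois (modularFunctionFieldFull N))

theorem arithmeticGalois_mem_inertiaSemi {N : ℕ} {A : ValuationSubring Qb} {σ : GalQ}
    (hσ : IsInertiaAt A σ) : arithmeticGalois (modularFunctionFieldFull N) σ ∈ inertiaSemi N A :=
  ⟨σ, hσ, rfl⟩

theorem exists_of_mem_inertiaSemi {N : ℕ} {A : ValuationSubring Qb}
    {g : SemilinearAut Qb (FBar N)} (hg : g ∈ inertiaSemi N A) :
    ∃ σ : GalQ, IsInertiaAt A σ ∧ arithmeticGalois (modularFunctionFieldFull N) σ = g := hg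

/-! ## The GR target -/

/-- **The target of block GR at `(N, A)`.** -/
def GrAt (N : ℕ) (A : ValuationSubring Qb) : Prop :=
  ∃ 𝓡 : H799.GoodRed Qb (FBar N) (kRes A) (FRes A N),
    𝓡.V = A ∧ inertiaSemi N A ≤ 𝓡.I

/-- **Block GR**: good reduction data for `X₀(N)` at every good level. -/
def GrStatement : Prop :=
  ∀ (N : ℕ) [NeZero N] (ℓ : ℕ) [Fact ℓ.Prime], ¬ ℓ ∣ N → GoodLevel N ℓ →
    ∀ A : ValuationSubring Qb, (ℓ : Qb) ∈ A.nonunits → GrAt N A

/-! ## Rank one -/

theorem isAlgebraic_int_Qb (x : Qb) : IsAlgebraic ℤ x :=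
  (IsFractionRing.isAlgebraic_iff ℤ ℚ Qb).mpr ((AlgebraicClosure.isAlgebraic ℚ).isAlgebraic x)

/-- Valuation subrings of `ℚ̄` over a prime have rank one. -/
theorem harch_Qb {ℓ : ℕ} (hℓ : ℓ.Prime) (A : ValuationSubring Qb) (hA : (ℓ : Qb) ∈ A.nonunits) :
    ∀ a b : Qb, a ∈ A.nonunits → b ≠ 0 → ∃ n : ℕ, a ^ n / b ∈ A :=
  harch A isAlgebraic_int_Qb hℓ hA

/-! ## The glue -/

/-- the torsion as an additive subgroup of `Pic0` -/
def torsSub (N ℓ k : ℕ) : AddSubgroup (Pic0 Qb (FBar N)) :=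
  (Submodule.torsionBy ℤ (JZero N) ((ℓ : ℤ) ^ k)).toAddSubgroup

theorem smul_mem_torsSub (N ℓ k : ℕ) (g : SemilinearAut Qb (FBar N)) {x : Pic0 Qb (FBar N)}
    (hx : x ∈ torsSub N ℓ k) : g • x ∈ torsSub N ℓ k := by
  have h : ((ℓ : ℤ) ^ k) • x = 0 := (Submodule.mem_torsionBy_iff _ _).mp hx
  refine (Submodule.mem_torsionBy_iff _ _).mpr ?_
  rw [← SemilinearAut.smul_zsmul, h]
  exact smul_zero (A := Pic0 Qb (FBar N)) g

/-- the residue field is algebraically closed -/
theorem isAlgClosed_kRes (A : ValuationSubring Qb) : IsAlgClosed (kRes A) :=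
  Fermat.Agent.S18.H905.isAlgClosed_residueField A

/-- Block DISC for the fields of the modular curve: the abstract `A3.H799.LocalStatement`. -/
def DiscAt (N : ℕ) (A : ValuationSubring Qb) : Prop :=
  haveI : IsAlgClosed (kRes A) := isAlgClosed_kRes A
  H799.LocalStatement Qb (FBar N) (kRes A) (FRes A N)

set_option maxHeartbeats 1600000 in
/-- **Glue**: node `LOCAL` of the A3 board from the abstract theorem of block DISC
(`A3.H799.LocalStatement`, for the fields of the modular curve) and block GR. -/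
theorem localStatement_of_disc_gr
    (hdisc : ∀ (N : ℕ) (A : ValuationSubring Qb), DiscAt N A)
    (hgr : GrStatement)
    (hex : ∀ ℓ : ℕ, ℓ.Prime → ∃ A : ValuationSubring Qb, (ℓ : Qb) ∈ A.nonunits) :
    Fermat.Agent.S19.LocalStatement := by
  intro N _ ℓ hℓ hℓN hgood k hfin
  obtain ⟨A, hA⟩ := hex ℓ hℓ.out
  obtain ⟨𝓡, hV, hI⟩ := hgr N ℓ hℓN hgood A hA
  haveI : IsAlgClosed (kRes A) := isAlgClosed_kRes A
  have harch : ∀ a b : Qb, a ∈ 𝓡.V.nonunits → b ≠ 0 → ∃ n : ℕ, a ^ n / b ∈ 𝓡.V := by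
    rw [hV]
    exact harch_Qb hℓ.out A hA
  haveI : Finite (torsSub N ℓ k) := hfin
  have hT : ∀ g ∈ 𝓡.I, ∀ x ∈ torsSub N ℓ k, g • x ∈ torsSub N ℓ k :=
    fun g _ x hx => smul_mem_torsSub N ℓ k g hx
  obtain ⟨ι, hι, Ψ, hinj, hint, heq, hadd⟩ := hdisc N A 𝓡 harch (torsSub N ℓ k) hT
  refine ⟨{ V := A
            ell_mem := hA
            ι := ι
            fin := hι
            Ψ := fun m i => Ψ m i
            inj := hinj
            integral := fun m i => by
              have := hint m i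
              rwa [hV] at this
            equivariant := ?_
            add_mem := ?_ }⟩
  · intro σ hσ m i
    have hg : arithmeticGalois (modularFunctionFieldFull N) σ ∈ 𝓡.I :=
      hI (arithmeticGalois_mem_inertiaSemi hσ)
    exact heq _ hg m i
  · intro i
    have h := hadd i
    rw [hV] at h
    exact h

end Fermat.Agent.A3.H675
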