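import Mathlib

/-!
# A3 / GR — Galois descent for vector spaces (Speiser's lemma)  (helper675)

Mathlib only.

* `span_orbitVec_eq_top` : for pairwise distinct monoid homomorphisms `χ g : E →* E`
  (`g` in a finite type), the vectors `(χ g a)_g`, `a ∈ E`, span `G → E` (Dedekind–Artin);
* `mem_span_invariants`  : **Speiser**: `E` a field, `G` a finite group acting faithfully on `E`
  by ring automorphisms `χ` and semilinearly on an `E`-module `M` by additive maps `ρ`.  Then
  every `m ∈ M` is an `E`-linear combination of `G`-invariant elements; more precisely of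
  traces `∑_g ρ g (a • m)`, `a ∈ E`.
-/

set_option autoImplicit false

open scoped BigOperators

namespace Fermat.Agent.A3.H675

section Artin

variable {E : Type*} [Field E] {G : Type*} [Fintype G]

/-- The vector `(χ g a)_g`. -/
def orbitVec (χ : G → (E →* E)) (a : E) : G → E := fun g => χ g a

/-- Dedekind–Artin: the vectors `(χ g a)_g` span `G → E` if the `χ g` are pairwise distinct. -/
theorem span_orbitVec_eq_top (χ : G → (E →* E)) (hχ : Function.Injective χ) :
    Submodule.span E (Set.range (orbitVec χ)) = ⊤ := by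
  classical
  by_contra hne
  obtain ⟨f, hf0, hf⟩ := Submodule.exists_le_ker_of_lt_top _ (lt_top_iff_ne_top.mpr hne)
  have key : ∀ a : E, ∑ g, (f fun j => if g = j then 1 else 0) * χ g a = 0 := by
    intro a
    have h1 : f (orbitVec χ a) = 0 := hf (Submodule.subset_span ⟨a, rfl⟩)
    rw [LinearMap.pi_apply_eq_sum_univ f (orbitVec χ a)] at h1
    refine Eq.trans (Finset.sum_congr rfl fun g _ => ?_) h1
    rw [smul_eq_mul, mul_comm]
    rfl
  have hli : LinearIndependent E (fun g : G => (χ g : E → E)) :=
    (linearIndependent_monoidHom E E).comp χ hχ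
  have hzero := Fintype.linearIndependent_iff.mp hli
    (fun g => f fun j => if g = j then 1 else 0) (by
      funext a
      simp only [Finset.sum_apply, Pi.smul_apply, smul_eq_mul, Pi.zero_apply]
      exact key a)
  apply hf0
  apply LinearMap.ext
  intro x
  rw [LinearMap.pi_apply_eq_sum_univ f x]
  simp only [hzero, smul_zero, Finset.sum_const_zero, LinearMap.zero_apply]

end Artin

section Speiser

variable {E : Type*} [Field E] {G : Type*} [Group G] [Fintype G]
variable {M : Type*} [AddCommGroup M] [Module E M]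

/-- The trace `∑_g ρ g x`. -/
def traceSum (ρ : G → M →+ M) (x : M) : M := ∑ g, ρ g x

theorem traceSum_invariant (ρ : G → M →+ M)
    (hmul : ∀ g h m, ρ (g * h) m = ρ g (ρ h m)) (x : M) (h : G) :
    ρ h (traceSum ρ x) = traceSum ρ x := by
  unfold traceSum
  rw [map_sum]
  have : ∀ g, ρ h (ρ g x) = ρ (h * g) x := fun g => (hmul h g x).symm
  simp only [this]
  exact Equiv.sum_comp (Equiv.mulLeft h) fun g => ρ g x

/-- **Speiser's lemma.**  Every element is a linear combination of traces. -/
theorem mem_span_traces (χ : G → (E →* E)) (hχ : Function.Injective χ)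
    (ρ : G → M →+ M) (hsemi : ∀ g (a : E) (m : M), ρ g (a • m) = χ g a • ρ g m)
    (hone : ∀ m, ρ 1 m = m) (m : M) :
    m ∈ Submodule.span E (Set.range fun a : E => traceSum ρ (a • m)) := by
  classical
  have htop := span_orbitVec_eq_top χ hχ
  have h1 : (fun j : G => if (1 : G) = j then (1 : E) else 0) ∈
      Submodule.span E (Set.range (orbitVec χ)) := by
    rw [htop]; exact Submodule.mem_top
  obtain ⟨c, hc⟩ := Finsupp.mem_span_range_iff_exists_finsupp.mp h1
  -- `∑_a c a • χ g a = [g = 1]`
  have hc' : ∀ g : G, (c.sum fun a b => b * χ g a) = if (1 : G) = g then 1 else 0 := by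
    intro g
    have := congrFun hc g
    rw [Finsupp.sum, Finset.sum_apply] at this
    simpa [Finsupp.sum, orbitVec] using this
  have hm : m = c.sum fun a b => b • traceSum ρ (a • m) := by
    unfold traceSum
    simp only [hsemi, Finsupp.sum, Finset.smul_sum, smul_smul]
    rw [Finset.sum_comm]
    have : ∀ g : G, (∑ a ∈ c.support, (c a * χ g a) • ρ g m)
        = (if (1 : G) = g then (1 : E) else 0) • ρ g m := by
      intro g
      rw [← Finset.sum_smul]
      congr 1
      exact hc' g
    simp only [this]
    rw [Finset.sum_eq_single (1 : G)]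
    · simp [hone]
    · intro g _ hg
      rw [if_neg (Ne.symm hg), zero_smul]
    · intro h
      exact absurd (Finset.mem_univ _) h
  have hmem : (c.sum fun a b => b • traceSum ρ (a • m)) ∈
      Submodule.span E (Set.range fun a : E => traceSum ρ (a • m)) := by
    refine Submodule.sum_mem _ fun a _ => ?_
    exact Submodule.smul_mem _ _ (Submodule.subset_span ⟨a, rfl⟩)
  rwa [← hm] at hmem

/-- **Speiser's lemma**, invariant form. -/
theorem mem_span_invariants (χ : G → (E →* E)) (hχ : Function.Injective χ)
    (ρ : G → M →+ M) (hsemi : ∀ g (a : E) (m : M), ρ g (a • m) = χ g a • ρ g m)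
    (hone : ∀ m, ρ 1 m = m) (hmul : ∀ g h m, ρ (g * h) m = ρ g (ρ h m)) (m : M) :
    m ∈ Submodule.span E {x : M | ∀ g, ρ g x = x} := by
  refine Submodule.span_mono ?_ (mem_span_traces χ hχ ρ hsemi hone m)
  rintro _ ⟨a, rfl⟩
  exact fun g => traceSum_invariant ρ hmul _ g

/-- Speiser's lemma inside a stable subgroup `W` of `M`: every `m ∈ W` is a combination of
invariant elements of `W`. -/
theorem mem_span_invariants_of_mem (χ : G → (E →* E)) (hχ : Function.Injective χ)
    (ρ : G → M →+ M) (hsemi : ∀ g (a : E) (m : M), ρ g (a • m) = χ g a • ρ g m)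
    (hone : ∀ m, ρ 1 m = m) (hmul : ∀ g h m, ρ (g * h) m = ρ g (ρ h m))
    (W : Submodule E M) (hW : ∀ g, ∀ m ∈ W, ρ g m ∈ W) {m : M} (hm : m ∈ W) :
    m ∈ Submodule.span E {x : M | x ∈ W ∧ ∀ g, ρ g x = x} := by
  refine Submodule.span_mono ?_ (mem_span_traces χ hχ ρ hsemi hone m)
  rintro _ ⟨a, rfl⟩
  refine ⟨?_, fun g => traceSum_invariant ρ hmul _ g⟩
  unfold traceSum
  exact Submodule.sum_mem _ fun g _ => hW g _ (Submodule.smul_mem _ _ hm)

end Speiser

end Fermat.Agent.A3.H675
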